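import Fermat.Agent.PadicHodge.Rep
import Fermat.Agent.Sen.Weights

/-!
# Sen's criterion for Hodge–Tate representations

A representation is Hodge–Tate exactly when its Sen operator is semisimple with eigenvalues in
`ℤ`; the weights are then the eigenvalues.
-/

set_option autoImplicit false
set_option linter.unusedSectionVars false

noncomputable section

open Finset FA.TateSen FA.Sen NormedSpace
open scoped Matrix Matrix.Norms.Elementwise

namespace FA.PadicHodge

variable {p : ℕ} [hp : Fact p.Prime] {d : Type} [Fintype d] [DecidableEq d]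

local notation "Cp" => ℂ_[p]
local notation "Ω" => PadicAlgCl p
local notation "G" => PadicAlgCl p ≃ₐ[ℚ_[p]] PadicAlgCl p
local notation "Md" => Matrix d d ℂ_[p]

/-- Semisimple with eigenvalues in `ℤ`. -/
def IsSemisimpleInt (Θ : Md) : Prop :=
  ∃ (Q : Mdˣ) (j : d → ℤ),
    Θ = (Q : Md) * (Matrix.diagonal fun i => (j i : Cp)) * (↑Q⁻¹ : Md)

theorem galM_exp (σ : G) {X : Md} (hX : ‖X‖ ≤ rad2 p) : galM σ (exp X) = exp (galM σ X) := by
  have h := (hasSum_exp hX).map (galM σ : Md →+* Md) (isometry_galM σ).continuous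
  simp only [Function.comp_def, galM_smul, map_pow] at h
  exact h.unique (hasSum_exp (by rwa [norm_galM]))

theorem logChi_conj (σ τ : G) : logChi p (σ * τ * σ⁻¹) = logChi p τ := by
  rw [logChi_mul, logChi_mul, add_comm (logChi p σ), add_assoc, ← logChi_mul, mul_inv_cancel,
    logChi_one, add_zero]

/-- The Sen operator commutes with the semilinear action. -/
theorem mul_galM_of_exp {U : G → Md} (hU : IsRep p d U) {m : ℕ} (h : IsLevelForm p d U m)
    {Θ : Md} {n : ℕ} (hn : ∀ σ ∈ levelGal p n, U σ = exp (logChi p σ • Θ)) (σ : G) :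
    U σ * galM σ Θ = Θ * U σ := by
  set A := galM σ (U σ⁻¹)
  have h1 : U σ * A = 1 := hU.mul_inv σ
  set u : Mdˣ := ⟨U σ, A, h1, mul_eq_one_comm.1 h1⟩
  obtain ⟨γ, hγ⟩ := exists_gen (p := p) h.le
  obtain ⟨a, ha⟩ := exists_small_log Θ (rad2_pos (p := p)) 0
  obtain ⟨b, hb⟩ := exists_small_log (A * Θ * U σ) (rad2_pos (p := p)) 0
  have key : A * Θ * U σ = galM σ Θ :=
    eq_of_exp_log hγ (n := n + m + ((0 + a) + (0 + b))) fun τ hτ => by
      have hτm : τ ∈ levelGal p m := levelGal_antitone (by omega) hτ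
      have hτn : τ ∈ levelGal p n := levelGal_antitone (by omega) hτ
      have hc : σ * τ * σ⁻¹ ∈ levelGal p n := (levelGal_normal n).conj_mem τ hτn σ
      have e : U (σ * τ * σ⁻¹) = U σ * galM σ (U τ) * A := by
        rw [hU.cocycle, hU.cocycle, galM_mul, galM_fix_levelMat hτm (h.mem σ⁻¹)]
      rw [hn _ hc, hn τ hτn, logChi_conj,
        galM_exp σ (ha τ (levelGal_antitone (by omega) hτ)), galM_smul] at e
      have e' : logChi p τ • (A * Θ * U σ) = A * (logChi p τ • Θ) * U σ := by
        rw [mul_smul_comm, smul_mul_assoc]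
      rw [e', show A * (logChi p τ • Θ) * U σ = (↑u⁻¹ : Md) * (logChi p τ • Θ) * (u : Md) from rfl,
        exp_conj_small u (ha τ (levelGal_antitone (by omega) hτ))
          (show ‖A * (logChi p τ • Θ) * U σ‖ ≤ rad2 p by
            rw [← e']; exact hb τ (levelGal_antitone (by omega) hτ)), e]
      show A * (U σ * exp (logChi p τ • galM σ Θ) * A) * U σ = _
      rw [show A * (U σ * exp (logChi p τ • galM σ Θ) * A) * U σ =
        (↑u⁻¹ * ↑u) * exp (logChi p τ • galM σ Θ) * (↑u⁻¹ * ↑u) by simp only [mul_assoc]; rfl,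
        Units.inv_mul, one_mul, mul_one]
  rw [← key, ← mul_assoc, ← mul_assoc, h1, one_mul]

/-- A representation trivial on an open normal subgroup is trivial. -/
theorem exists_invariant_of_open {U : G → Md} (hU : IsRep p d U) {V : Subgroup G} [V.Normal]
    (hV : IsOpen (V : Set G)) (h1 : ∀ v ∈ V, U v = 1) :
    ∃ P : Mdˣ, ∀ σ, FA.Sen.conj U P σ = 1 := by
  classical
  set F : IntermediateField ℚ_[p] Ω := ⊥
  have htop : ∀ σ : G, σ ∈ F.fixingSubgroup := fun σ => by
    rw [show F = ⊥ from rfl, IntermediateField.fixingSubgroup_bot]; exact Subgroup.mem_top σ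
  have := levelGroup_finite (F := F) hV
  have : Fintype (LevelGroup F V) := Fintype.ofFinite _
  have hrep : ∀ g : LevelGroup F V, ∃ σ : F.fixingSubgroup, levelRes σ = g.1 := fun g => g.2
  choose r hr using hrep
  obtain ⟨c, hc⟩ := exists_twisted_sum_isUnit (fun g => U (r g : G)) (g₀ := 1) (hU.isUnit _)
  obtain ⟨P, hP⟩ := hc
  refine ⟨P, fun σ => ?_⟩
  rw [FA.Sen.conj_eq_one_iff, hP, map_sum, Finset.mul_sum]
  set g₀ : LevelGroup F V := ⟨levelRes ⟨σ, htop σ⟩, ⟨⟨σ, htop σ⟩, rfl⟩⟩
  conv_rhs => rw [← Equiv.sum_comp (Equiv.mulLeft g₀)]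
  refine sum_congr rfl fun g _ => ?_
  have hres : levelRes (U := V) (⟨σ, htop σ⟩ * r g) = (g₀ * g).1 :=
    levelRes_mul_eq _ _ g₀ g rfl (hr g)
  have h4 := mem_of_levelRes_eq hV ((hr (g₀ * g)).trans hres.symm)
  rw [Subgroup.coe_mul] at h4
  have hUr : U (σ * (r g : G)) = U (r (g₀ * g) : G) := by
    conv_lhs => rw [show σ * (r g : G) =
      (r (g₀ * g) : G) * (((r (g₀ * g) : G))⁻¹ * (σ * (r g : G))) by rw [mul_inv_cancel_left]]
    exact hU.mul_right_of_trivial h1 _ h4
  rw [galM_csmul, mul_smul_comm, ← hU.cocycle, hUr]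
  congr 1
  change gal σ (((g • c : levelField F V) : Ω) : Cp) =
    ((((g₀ * g) • c : levelField F V) : Ω) : Cp)
  rw [← coe_level_smul (r g) g (hr g) c, ← gal_mul]
  have h3 := coe_level_smul (V := V) (⟨σ, htop σ⟩ * r g) (g₀ * g) hres c
  rw [Subgroup.coe_mul] at h3
  exact h3

/-- A representation with a spanning family of invariant vectors of given twists is Hodge–Tate. -/
theorem isHodgeTate_of_span {U : G → Md} {J : Type*} (w : J → ℤ) (x : J → d → Cp)
    (hx : ∀ a, x a ∈ dHT U (w a)) (hspan : Submodule.span Cp (Set.range x) = ⊤) :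
    IsHodgeTate U := by
  obtain ⟨b, hb, hsp, hli⟩ := exists_linearIndependent Cp (Set.range x)
  let B := Module.Basis.mk hli (by rw [Subtype.range_coe, hsp, hspan])
  let e : d ≃ b := (Pi.basisFun Cp d).indexEquiv B
  choose a ha using fun k => hb (e k).2
  set X : Md := Matrix.of fun i k => x (a k) i
  obtain ⟨P, hP⟩ := Matrix.linearIndependent_cols_iff_isUnit.1
    (show LinearIndependent Cp X.col by
      rw [show X.col = ((↑) : b → d → Cp) ∘ e from funext fun k => ha k]
      exact hli.comp e e.injective)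
  refine ⟨P, fun k => -w (a k), fun σ => conj_eq_iff.2 (Matrix.ext fun i k => ?_)⟩
  rw [hP, Matrix.mul_diagonal, mul_comm (X i k)]
  exact congrFun (mulVec_eq_of_mem_dHT (hx (a k)) σ) i

theorem galM_diagonal (σ : G) (v : d → Cp) :
    galM σ (Matrix.diagonal v) = Matrix.diagonal fun i => gal σ (v i) := by
  rw [galM, RingHom.mapMatrix_apply, Matrix.diagonal_map (map_zero _)]

theorem commute_diagonal_of_commute {j : d → ℤ} {M : Md}
    (h : M * (Matrix.diagonal fun i => (j i : Cp)) = (Matrix.diagonal fun i => (j i : Cp)) * M)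
    (f : ℤ → Cp) :
    M * (Matrix.diagonal fun i => f (j i)) = (Matrix.diagonal fun i => f (j i)) * M := by
  refine Matrix.ext fun i k => ?_
  have h1 := congrFun (congrFun h i) k
  rw [Matrix.mul_diagonal, Matrix.diagonal_mul] at h1
  rw [Matrix.mul_diagonal, Matrix.diagonal_mul]
  rcases eq_or_ne (M i k) 0 with h0 | h0
  · rw [h0, zero_mul, mul_zero]
  · have h2 : j k = j i := Int.cast_injective (mul_left_cancel₀ h0 (h1.trans (mul_comm _ _)))
    rw [h2, mul_comm]

/-- A block diagonal representation with an invariant basis after untwisting is Hodge–Tate. -/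
theorem isHodgeTate_of_untwisted {U : G → Md} {j : d → ℤ}
    (hcd : ∀ (f : ℤ → Cp) σ, U σ * (Matrix.diagonal fun i => f (j i)) =
      (Matrix.diagonal fun i => f (j i)) * U σ)
    {Z : Mdˣ} (hZ : ∀ σ, U σ * galM σ (Z : Md) = twistRep j σ * (Z : Md)) : IsHodgeTate U := by
  classical
  set E : ℤ → Md := fun v => Matrix.diagonal fun i => if j i = v then (1 : Cp) else 0
  have hEfix : ∀ v σ, galM σ (E v) = E v := fun v σ => by
    simp only [E, galM_diagonal, apply_ite (gal σ), map_one, map_zero]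
  have hEt : ∀ v σ, E v * twistRep j σ = twist p v σ • E v := fun v σ => by
    simp only [E, twistRep, Matrix.diagonal_mul_diagonal, ← Matrix.diagonal_smul]
    refine congrArg Matrix.diagonal (funext fun i => ?_)
    simp only [Pi.smul_apply, smul_eq_mul]
    split_ifs with hv
    · rw [hv, one_mul, mul_one]
    · rw [zero_mul, mul_zero]
  have hEZ : ∀ v σ, U σ * galM σ (E v * (Z : Md)) = twist p v σ • (E v * (Z : Md)) :=
    fun v σ => by
    rw [map_mul, hEfix, ← mul_assoc, show U σ * E v = E v * U σ from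
      hcd (fun w => if w = v then (1 : Cp) else 0) σ, mul_assoc, hZ,
      ← mul_assoc, hEt, smul_mul_assoc]
  refine isHodgeTate_of_span (fun a : d × d => -j a.1)
    (fun a => (E (j a.1) * (Z : Md)).col a.2) (fun a σ => funext fun i => ?_) ?_
  · have h1 := congrFun (congrFun (hEZ (j a.1) σ) i) a.2
    change twist p (-j a.1) σ * (U σ * galM σ (E (j a.1) * (Z : Md))) i a.2 = _
    rw [h1, Matrix.smul_apply, smul_eq_mul, ← mul_assoc, twist_inv_mul, one_mul]
    rfl
  · refine eq_top_iff.2 fun y _ => ?_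
    obtain ⟨c, rfl⟩ := Matrix.mulVec_surjective_iff_isUnit.2 Z.isUnit y
    have hsum : ∑ v ∈ univ.image j, E v * (Z : Md) = Z := by
      rw [← Finset.sum_mul]
      conv_rhs => rw [← one_mul (Z : Md)]
      congr 1
      refine Matrix.ext fun i k => ?_
      rw [Matrix.sum_apply]
      rcases eq_or_ne i k with rfl | hik
      · simp only [E, Matrix.diagonal_apply_eq, Matrix.one_apply_eq]
        rw [Finset.sum_ite_eq, if_pos (mem_image_of_mem j (mem_univ i))]
      · simp only [E, Matrix.diagonal_apply_ne _ hik, Matrix.one_apply_ne hik, sum_const_zero]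
    rw [show (Z : Md) *ᵥ c = (∑ v ∈ univ.image j, E v * (Z : Md)) *ᵥ c by rw [hsum],
      Matrix.sum_mulVec]
    refine Submodule.sum_mem _ fun v hv => ?_
    obtain ⟨i₀, -, rfl⟩ := mem_image.1 hv
    rw [show (E (j i₀) * (Z : Md)) *ᵥ c = ∑ k, c k • (E (j i₀) * (Z : Md)).col k from by
      funext i
      simp [Matrix.mulVec, dotProduct, Finset.sum_apply, mul_comm]]
    exact Submodule.sum_mem _ fun k _ =>
      Submodule.smul_mem _ _ (Submodule.subset_span ⟨(i₀, k), rfl⟩)

/-- A representation in level form whose Sen operator is semisimple with integer eigenvalues is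
Hodge–Tate. -/
theorem isHodgeTate_of_exp {U : G → Md} (hU : IsRep p d U) {m : ℕ} (h : IsLevelForm p d U m)
    {Θ : Md} {n : ℕ} (hn : ∀ σ ∈ levelGal p n, U σ = exp (logChi p σ • Θ))
    (hΘ : IsSemisimpleInt Θ) : IsHodgeTate U := by
  classical
  obtain ⟨Q, j, hQ⟩ := hΘ
  set D : Md := Matrix.diagonal fun i => (j i : Cp) with hD
  set U₁ := FA.Sen.conj U Q with hU₁
  have hU₁r : IsRep p d U₁ := hU.conj Q
  have hDfix : ∀ σ : G, galM σ D = D := fun σ => by
    rw [hD, galM_diagonal]
    exact congrArg Matrix.diagonal (funext fun i => map_intCast _ _)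
  have hcomm : ∀ σ, U₁ σ * D = D * U₁ σ := fun σ => by
    have h1 := mul_galM_of_exp hU h hn σ
    rw [hQ, map_mul, map_mul, hDfix] at h1
    have h2 := congrArg (fun M : Md => (↑Q⁻¹ : Md) * M * galM σ (Q : Md)) h1
    simp only [mul_assoc, ← map_mul, Units.inv_mul, map_one, mul_one,
      Units.inv_mul_cancel_left] at h2
    simpa only [hU₁, FA.Sen.conj, mul_assoc] using h2
  have hcd : ∀ (f : ℤ → Cp) σ, U₁ σ * (Matrix.diagonal fun i => f (j i)) =
      (Matrix.diagonal fun i => f (j i)) * U₁ σ := fun f σ =>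
    commute_diagonal_of_commute (hcomm σ) f
  -- untwist
  set t : G → Md := twistRep fun i => -j i
  have ht : IsRep p d t := isRep_twistRep _
  set V : G → Md := fun σ => t σ * U₁ σ
  have hV : IsRep p d V :=
    { cont := ht.cont.mul hU₁r.cont
      map_one := by simp only [V]; rw [ht.map_one, hU₁r.map_one, one_mul]
      cocycle := fun σ τ => by
        have hfix : galM σ (t τ) = t τ := by
          simp only [t, twistRep, galM_diagonal, gal_twist]
        simp only [V, ht.cocycle, hU₁r.cocycle, map_mul, hfix, mul_assoc]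
        rw [← mul_assoc (U₁ σ) (t τ), show U₁ σ * t τ = t τ * U₁ σ from
          hcd (fun v => twist p (-v) τ) σ, mul_assoc] }
  obtain ⟨a, ha⟩ := exists_exp_smul_intDiagonal (p := p) j
  obtain ⟨b, hb⟩ := exists_small_log Θ (rad2_pos (p := p)) 0
  set N := n + a + (0 + b)
  have hVN : ∀ σ ∈ levelGal p N, FA.Sen.conj V Q⁻¹ σ = 1 := fun σ hσ => by
    obtain ⟨hs, he⟩ := ha σ (levelGal_antitone (by omega) hσ)
    have eΘ : logChi p σ • Θ = (↑(Q⁻¹)⁻¹ : Md) * (logChi p σ • D) * (↑Q⁻¹ : Md) := by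
      rw [inv_inv, hQ, mul_smul_comm, smul_mul_assoc]
    have hU' : U σ = (Q : Md) * twistRep j σ * (↑Q⁻¹ : Md) := by
      rw [hn σ (levelGal_antitone (by omega) hσ), eΘ, exp_conj_small Q⁻¹ hs
        (by rw [← eΘ]; exact hb σ (levelGal_antitone (by omega) hσ)), inv_inv, he]
    have htw : t σ * twistRep j σ = 1 := by
      simp only [t, twistRep, Matrix.diagonal_mul_diagonal, twist_inv_mul, Matrix.diagonal_one]
    rw [FA.Sen.conj_eq_one_iff]
    simp only [V, hU₁, FA.Sen.conj, hU', mul_assoc, Units.inv_mul_cancel_left, ← map_mul,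
      Units.mul_inv, map_one, mul_one]
    rw [← mul_assoc, htw, one_mul]
  have := levelGal_normal (p := p) N
  obtain ⟨P₀, hP₀⟩ := exists_invariant_of_open (hV.conj Q⁻¹) (isOpen_levelGal N) hVN
  set Z : Mdˣ := Q⁻¹ * P₀
  have hZ : ∀ σ, U₁ σ * galM σ (Z : Md) = twistRep j σ * (Z : Md) := fun σ => by
    have h1 := hP₀ σ
    rw [conj_conj] at h1
    have h2 := congrArg (twistRep j σ * ·) (FA.Sen.conj_eq_one_iff.1 h1)
    have htw : twistRep j σ * t σ = 1 := by
      simp only [t, twistRep, Matrix.diagonal_mul_diagonal]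
      simp only [mul_comm (twist p (j _) σ), twist_inv_mul, Matrix.diagonal_one]
    simp only [V, ← mul_assoc, htw, one_mul] at h2
    exact h2
  obtain ⟨P, v, hP⟩ := isHodgeTate_of_untwisted hcd hZ
  exact ⟨Q * P, v, fun σ => by rw [← conj_conj]; exact hP σ⟩

/-- The Sen operator of a Hodge–Tate representation is diagonal in the Hodge–Tate basis. -/
theorem isSenOperator_of_conj {U : G → Md} {P : Mdˣ} {j : d → ℤ}
    (hP : ∀ σ, FA.Sen.conj U P σ = Matrix.diagonal fun i => twist p (j i) σ) :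
    IsSenOperator p d U (Matrix.diagonal fun i => (j i : Cp)) := by
  obtain ⟨P', m, hl, hmem, n, hn⟩ := isSenOperator_twistRep (p := p) j
  have e : FA.Sen.conj (twistRep j) P' = FA.Sen.conj U (P * P') := by
    rw [← conj_conj, show FA.Sen.conj U P = twistRep j from funext hP]
  rw [e] at hl hn
  exact ⟨P * P', m, hl, hmem, n, hn⟩

/-- **Sen's criterion**: Hodge–Tate if and only if the Sen operator is semisimple with eigenvalues
in `ℤ`. -/
theorem isHodgeTate_iff_semisimpleInt {U : G → Md} (hU : IsRep p d U) {Θ : Md}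
    (h : IsSenOperator p d U Θ) : IsHodgeTate U ↔ IsSemisimpleInt Θ := by
  refine ⟨fun ⟨P, j, hP⟩ => ?_, fun hΘ => ?_⟩
  · obtain ⟨Q, -, -, hQ⟩ := (isSenOperator_of_conj hP).exists_conj h
    exact ⟨Q⁻¹, j, by rw [hQ, inv_inv]⟩
  · obtain ⟨P, m, hl, -, n, hn⟩ := h
    obtain ⟨P', v, hP'⟩ := isHodgeTate_of_exp (hU.conj P) hl hn hΘ
    exact ⟨P * P', v, fun σ => by rw [← conj_conj]; exact hP' σ⟩

/-- **The Hodge–Tate weights are the eigenvalues of the Sen operator.** -/
theorem charpoly_senOperator_of_conj {U : G → Md} {Θ : Md} (h : IsSenOperator p d U Θ) {P : Mdˣ}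
    {j : d → ℤ} (hP : ∀ σ, FA.Sen.conj U P σ = Matrix.diagonal fun i => twist p (j i) σ) :
    Θ.charpoly = ∏ i, (Polynomial.X - Polynomial.C (j i : Cp)) := by
  rw [(isSenOperator_of_conj hP).charpoly_eq h, Matrix.charpoly_diagonal]

end FA.PadicHodge
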