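import Fermat.Agent.BDR.Invariants
import Mathlib.RingTheory.Nilpotent.Exp

/-!
# Fontaine's period `t = log [ε]`

Modulo each power of the uniformiser `Π = [ε] - 1` of `B_dR⁺` the exponential of nilpotent elements
has an inverse with bounded denominators. As `A_inf` is `p`-adically separated there, the element
`t` with `exp t = [ε]` is multiplied by exactly `χ σ` under each automorphism `σ`.
-/

set_option autoImplicit false
set_option linter.unusedSectionVars false

noncomputable section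

open Ideal Finset Filter FA.TateSen FA.FontaineWintenberger FA.BDR WittVector
open scoped Topology Nat

namespace FA.PadicHodge

variable {p : ℕ} [hp : Fact p.Prime]

local notation "Cp" => ℂ_[p]
local notation "G" => PadicAlgCl p ≃ₐ[ℚ_[p]] PadicAlgCl p

variable (p) in
/-- `B_dR⁺` modulo a power of the uniformiser. -/
def BQuot (n : ℕ) : Type := BPlus p ⧸ span {piMu p ^ n}

instance bquotCommRing (n : ℕ) : CommRing (BQuot p n) :=
  inferInstanceAs (CommRing (BPlus p ⧸ span {piMu p ^ n}))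

variable (p) in
/-- The projection. -/
def mkQ (n : ℕ) : BPlus p →+* BQuot p n := Ideal.Quotient.mk _

instance bquotAlgebraRat (n : ℕ) : Algebra ℚ (BQuot p n) :=
  ((mkQ p n).comp ((qpHom p).comp (algebraMap ℚ ℚ_[p]))).toAlgebra

variable (p) in
/-- `A_inf` modulo a power of the uniformiser. -/
def imgA (n : ℕ) : AInf p →+* BQuot p n :=
  (mkQ p n).comp ((toBPlus p).comp (algebraMap (AInf p) (AInfP p)))

theorem mkQ_eq_zero_iff {n : ℕ} {x : BPlus p} : mkQ p n x = 0 ↔ piMu p ^ n ∣ x := by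
  exact Ideal.Quotient.eq_zero_iff_mem.trans mem_span_singleton

theorem piMu_pow_dvd_iff {n : ℕ} {x : BPlus p} : piMu p ^ n ∣ x ↔ piBDR p ^ n ∣ x := by
  obtain ⟨c, hc⟩ := exists_piMu_eq (p := p)
  rw [hc, mul_pow, ← Units.val_pow_eq_pow_val, Units.mul_right_dvd]

variable (p) in
/-- Multiples of the uniformiser. -/
def InPi (n : ℕ) (x : BQuot p n) : Prop := mkQ p n (piMu p) ∣ x

theorem InPi.pow_eq_zero {n : ℕ} {x : BQuot p n} (h : InPi p n x) : x ^ n = 0 := by
  obtain ⟨y, rfl⟩ := h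
  rw [mul_pow, ← map_pow, mkQ_eq_zero_iff.2 dvd_rfl, zero_mul]

theorem InPi.isNilpotent {n : ℕ} {x : BQuot p n} (h : InPi p n x) : IsNilpotent x :=
  ⟨n, h.pow_eq_zero⟩

theorem expQ_eq_sum {n k : ℕ} {x : BQuot p n} (h : x ^ k = 0) :
    IsNilpotent.exp x = ∑ i ∈ range k, mkQ p n (qpHom p ((i ! : ℚ_[p])⁻¹)) * x ^ i := by
  rw [IsNilpotent.exp_eq_sum h]
  refine sum_congr rfl fun i _ => ?_
  rw [Algebra.smul_def]
  congr 1
  show mkQ p n (qpHom p (algebraMap ℚ ℚ_[p] ((i ! : ℚ)⁻¹))) = _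
  rw [map_inv₀ (algebraMap ℚ ℚ_[p]), map_natCast (algebraMap ℚ ℚ_[p])]

theorem self_dvd_exp_sub_one {n : ℕ} {x : BQuot p n} (h : InPi p n x) :
    x ∣ IsNilpotent.exp x - 1 ∧ x * x ∣ IsNilpotent.exp x - 1 - x := by
  rw [expQ_eq_sum (k := n + 2) (by rw [pow_add, h.pow_eq_zero, zero_mul]), sum_range_succ',
    sum_range_succ']
  simp only [zero_add, Nat.factorial_zero, Nat.factorial_one, Nat.cast_one, inv_one, map_one,
    one_mul, pow_zero, pow_one]
  refine ⟨?_, ?_⟩
  · rw [add_sub_cancel_right]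
    exact dvd_add (dvd_sum fun i _ => dvd_mul_of_dvd_right (dvd_pow_self x (by omega)) _) dvd_rfl
  · rw [add_sub_cancel_right, add_sub_cancel_right]
    refine dvd_sum fun i _ => dvd_mul_of_dvd_right ?_ _
    rw [← pow_two]
    exact pow_dvd_pow x (by omega)

/-- The exponential is injective on multiples of the uniformiser. -/
theorem expQ_injective {n : ℕ} {x y : BQuot p n} (hx : InPi p n x) (hy : InPi p n y)
    (h : IsNilpotent.exp x = IsNilpotent.exp y) : x = y := by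
  have hz : InPi p n (x - y) := dvd_sub hx hy
  have h1 : IsNilpotent.exp (x - y) = 1 := by
    rw [sub_eq_add_neg, IsNilpotent.exp_add_of_commute (Commute.all _ _) hx.isNilpotent
      hy.isNilpotent.neg, h, IsNilpotent.exp_mul_exp_neg_self hy.isNilpotent]
  obtain ⟨r, hr⟩ := (self_dvd_exp_sub_one hz).2
  rw [h1, sub_self, zero_sub] at hr
  have hnil : IsNilpotent ((x - y) * r) := (Commute.all _ _).isNilpotent_mul_right hz.isNilpotent
  refine sub_eq_zero.1 ((hnil.isUnit_one_add).mul_left_eq_zero.1 ?_)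
  linear_combination -hr

theorem expQ_nsmul {n : ℕ} {x : BQuot p n} (hx : InPi p n x) (k : ℕ) :
    IsNilpotent.exp ((k : BQuot p n) * x) = IsNilpotent.exp x ^ k := by
  induction k with
  | zero => rw [Nat.cast_zero, zero_mul, IsNilpotent.exp_zero, pow_zero]
  | succ k ih =>
    rw [Nat.cast_succ, add_one_mul, IsNilpotent.exp_add_of_commute (Commute.all _ _)
      (InPi.isNilpotent (dvd_mul_of_dvd_right hx _)) hx.isNilpotent, ih, pow_succ]

theorem natCast_pow_eq_imgA (n c : ℕ) : (p : BQuot p n) ^ c = imgA p n ((p : AInf p) ^ c) := by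
  rw [map_pow, map_natCast]

theorem imgA_zpHom (n : ℕ) (z : ℤ_[p]) :
    imgA p n (zpHom p z) = mkQ p n (qpHom p (z : ℚ_[p])) := by
  rw [← PadicInt.algebraMap_apply, qpHom, IsLocalization.lift_eq, imgA, zpPlus]
  rfl

variable (p) in
/-- Elements with denominator at most `p ^ c`. -/
def Bdd (n c : ℕ) (x : BQuot p n) : Prop := ∃ a : AInf p, (p : BQuot p n) ^ c * x = imgA p n a

theorem Bdd.mono {n c c' : ℕ} {x : BQuot p n} (h : Bdd p n c x) (hc : c ≤ c') :
    Bdd p n c' x := by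
  obtain ⟨a, ha⟩ := h
  refine ⟨(p : AInf p) ^ (c' - c) * a, ?_⟩
  rw [map_mul, ← natCast_pow_eq_imgA, ← ha, ← mul_assoc, ← pow_add, Nat.sub_add_cancel hc]

theorem bdd_imgA (n : ℕ) (a : AInf p) : Bdd p n 0 (imgA p n a) :=
  ⟨a, by rw [pow_zero, one_mul]⟩

theorem Bdd.add {n c : ℕ} {x y : BQuot p n} (hx : Bdd p n c x) (hy : Bdd p n c y) :
    Bdd p n c (x + y) := by
  obtain ⟨a, ha⟩ := hx
  obtain ⟨b, hb⟩ := hy
  exact ⟨a + b, by rw [mul_add, ha, hb, map_add]⟩

theorem Bdd.sub {n c : ℕ} {x y : BQuot p n} (hx : Bdd p n c x) (hy : Bdd p n c y) :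
    Bdd p n c (x - y) := by
  obtain ⟨a, ha⟩ := hx
  obtain ⟨b, hb⟩ := hy
  exact ⟨a - b, by rw [mul_sub, ha, hb, map_sub]⟩

theorem Bdd.mul {n c c' : ℕ} {x y : BQuot p n} (hx : Bdd p n c x) (hy : Bdd p n c' y) :
    Bdd p n (c + c') (x * y) := by
  obtain ⟨a, ha⟩ := hx
  obtain ⟨b, hb⟩ := hy
  exact ⟨a * b, by rw [map_mul, ← ha, ← hb, pow_add, mul_mul_mul_comm]⟩

theorem Bdd.pow {n c : ℕ} {x : BQuot p n} (hx : Bdd p n c x) : ∀ i, Bdd p n (c * i) (x ^ i)
  | 0 => by rw [mul_zero, pow_zero, ← map_one (imgA p n)]; exact bdd_imgA n 1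
  | i + 1 => by rw [Nat.mul_succ, pow_succ]; exact (hx.pow i).mul hx

theorem bdd_inv_factorial (n i : ℕ) : Bdd p n i (mkQ p n (qpHom p ((i ! : ℚ_[p])⁻¹))) := by
  have h : ‖(p : ℚ_[p]) ^ i * (i ! : ℚ_[p])⁻¹‖ ≤ 1 := by
    rw [norm_mul, norm_pow, Padic.norm_p, inv_pow]
    refine (mul_le_mul_of_nonneg_left (FA.Brumer.norm_inv_factorial_le p (C := ℚ_[p]) i)
      (by positivity)).trans_eq (inv_mul_cancel₀ (pow_ne_zero i ?_))
    exact_mod_cast hp.out.ne_zero
  refine ⟨zpHom p ⟨_, h⟩, ?_⟩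
  rw [imgA_zpHom, map_mul (qpHom p), map_mul (mkQ p n), map_pow (qpHom p), map_pow (mkQ p n),
    map_natCast (qpHom p), map_natCast (mkQ p n)]

theorem Bdd.exp {n c : ℕ} {x : BQuot p n} (hx : Bdd p n c x) (hpi : InPi p n x) :
    Bdd p n (n * (c + 1)) (IsNilpotent.exp x) := by
  rw [expQ_eq_sum hpi.pow_eq_zero]
  refine Finset.sum_induction _ (Bdd p n (n * (c + 1))) (fun _ _ => Bdd.add)
    ((show Bdd p n 0 0 from ⟨0, by rw [mul_zero, map_zero]⟩).mono (Nat.zero_le _)) fun i hi => ?_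
  refine ((bdd_inv_factorial n i).mul (hx.pow i)).mono ?_
  rw [mem_range] at hi
  calc i + c * i = i * (c + 1) := by ring
    _ ≤ n * (c + 1) := Nat.mul_le_mul_right _ hi.le

theorem inPi_imgA_xi_mul (n : ℕ) (w : AInf p) : InPi p n (imgA p n (xi p * w)) := by
  have h : piMu p ∣ toBPlus p (algebraMap _ _ (xi p)) := by
    obtain ⟨c, hc⟩ := exists_piMu_eq (p := p)
    rw [hc, Units.mul_right_dvd]
    exact dvd_rfl
  rw [map_mul]
  exact dvd_mul_of_dvd_left (map_dvd (mkQ p n) h) _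

/-- Successive approximation of the logarithm with bounded denominators. -/
theorem exists_log_approx (n j : ℕ) : ∃ c : ℕ, ∀ z : BQuot p n,
    (∃ w : AInf p, z = 1 + imgA p n (xi p * w)) →
      ∃ s, InPi p n s ∧ Bdd p n c s ∧ mkQ p n (piMu p) ^ (j + 1) ∣ z - IsNilpotent.exp s := by
  induction j with
  | zero =>
    refine ⟨0, ?_⟩
    rintro z ⟨w, rfl⟩
    refine ⟨0, dvd_zero _, ⟨0, by rw [mul_zero, map_zero]⟩, ?_⟩
    rw [IsNilpotent.exp_zero, add_sub_cancel_left, zero_add, pow_one]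
    exact inPi_imgA_xi_mul n w
  | succ j ih =>
    obtain ⟨c, hc⟩ := ih
    refine ⟨c + n * (c + 1), ?_⟩
    rintro z ⟨w, hw⟩
    obtain ⟨s, hs, hsb, hd⟩ := hc z ⟨w, hw⟩
    set δ := z - IsNilpotent.exp s
    have hδ : InPi p n δ := (dvd_pow_self _ j.succ_ne_zero).trans hd
    have hzb : Bdd p n (n * (c + 1)) z := by
      rw [hw, ← map_one (imgA p n), ← map_add]
      exact (bdd_imgA n _).mono (Nat.zero_le _)
    refine ⟨s + δ, dvd_add hs hδ, (hsb.mono (Nat.le_add_right _ _)).add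
      ((hzb.sub (hsb.exp hs)).mono (Nat.le_add_left _ _)), ?_⟩
    rw [IsNilpotent.exp_add_of_commute (Commute.all _ _) hs.isNilpotent hδ.isNilpotent]
    obtain ⟨a, ha⟩ := (self_dvd_exp_sub_one hδ).2
    obtain ⟨b, hb⟩ := (self_dvd_exp_sub_one hs).1
    obtain ⟨r, hr⟩ := hd
    obtain ⟨s', rfl⟩ := hs
    have hkey : z - IsNilpotent.exp (mkQ p n (piMu p) * s') * IsNilpotent.exp δ =
        -(IsNilpotent.exp (mkQ p n (piMu p) * s') * (δ * δ * a) +
          mkQ p n (piMu p) * s' * b * δ) := by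
      have hδ' : δ = z - IsNilpotent.exp (mkQ p n (piMu p) * s') := rfl
      linear_combination (-IsNilpotent.exp (mkQ p n (piMu p) * s')) * ha + (-δ) * hb +
        (-1 : BQuot p n) * hδ'
    rw [hkey]
    refine dvd_neg.2 (dvd_add (dvd_mul_of_dvd_right (dvd_mul_of_dvd_left ?_ a) _) ?_)
    · rw [pow_succ]
      exact mul_dvd_mul ⟨r, hr⟩ hδ
    · rw [pow_succ']
      exact mul_dvd_mul ((dvd_mul_right _ s').mul_right b) ⟨r, hr⟩

/-- **The logarithm modulo a power of the uniformiser**, with bounded denominators. -/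
theorem exists_logQ (n : ℕ) : ∃ c : ℕ, ∀ z : BQuot p n,
    (∃ w : AInf p, z = 1 + imgA p n (xi p * w)) →
      ∃ s, InPi p n s ∧ Bdd p n c s ∧ IsNilpotent.exp s = z := by
  obtain ⟨c, hc⟩ := exists_log_approx (p := p) n n
  refine ⟨c, fun z hz => ?_⟩
  obtain ⟨s, hs, hsb, hd⟩ := hc z hz
  rw [pow_succ, ← map_pow, mkQ_eq_zero_iff.2 dvd_rfl, zero_mul, zero_dvd_iff, sub_eq_zero] at hd
  exact ⟨s, hs, hsb, hd.symm⟩

theorem theta_eq_zero_of_forall {b : AInf p}
    (h : ∀ N : ℕ, ∃ a : AInf p, theta p b = (p : OC p) ^ N * theta p a) : theta p b = 0 := by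
  refine Subtype.ext ?_
  rw [ZeroMemClass.coe_zero, ← norm_le_zero_iff]
  refine ge_of_tendsto'
    (tendsto_pow_atTop_nhds_zero_of_lt_one (norm_nonneg (p : Cp)) norm_p_C_lt) fun N => ?_
  obtain ⟨a, ha⟩ := h N
  rw [ha, MulMemClass.coe_mul, SubmonoidClass.coe_pow, coe_natCast_OC, norm_mul, norm_pow]
  exact mul_le_of_le_one_right (by positivity) (norm_OC_le _)

/-- `A_inf` modulo a power of `ξ` is separated. -/
theorem xi_pow_dvd_of_forall (n : ℕ) : ∀ b : AInf p,
    (∀ N : ℕ, ∃ a, xi p ^ n ∣ b - (p : AInf p) ^ N * a) → xi p ^ n ∣ b := by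
  induction n with
  | zero => simp
  | succ n ih =>
    intro b hb
    choose a ha using hb
    have hθ : ∀ N, theta p b = (p : OC p) ^ N * theta p (a N) := fun N => by
      obtain ⟨r, hr⟩ := ha N
      have h1 := congrArg (theta p) hr
      rwa [map_sub, map_mul, map_mul, map_pow, map_pow, map_natCast, theta_xi,
        zero_pow n.succ_ne_zero, zero_mul, sub_eq_zero] at h1
    have hb0 := theta_eq_zero_of_forall fun N => ⟨a N, hθ N⟩
    have hp0 : (p : OC p) ≠ 0 := fun h0 => Nat.cast_ne_zero.2 hp.out.ne_zero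
      (by rw [← coe_natCast_OC, h0]; rfl : (p : Cp) = 0)
    have hdiv : ∀ c, theta p c = 0 → xi p ∣ c := fun c hc => by
      rw [← mem_span_singleton, ← ker_theta]
      exact RingHom.mem_ker.2 hc
    obtain ⟨b', rfl⟩ := hdiv b hb0
    have ha' : ∀ N, ∃ a', a N = xi p * a' := fun N =>
      hdiv (a N) ((mul_eq_zero.1 ((hθ N).symm.trans hb0)).resolve_left (pow_ne_zero N hp0))
    choose a' ha'' using ha'
    rw [pow_succ']
    refine mul_dvd_mul_left _ (ih b' fun N => ⟨a' N, ?_⟩)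
    have h := ha N
    rw [ha'' N, show xi p * b' - (p : AInf p) ^ N * (xi p * a' N) =
      xi p * (b' - (p : AInf p) ^ N * a' N) by ring, pow_succ',
      mul_dvd_mul_iff_left xi_ne_zero] at h
    exact h

theorem imgA_eq_zero_iff {n : ℕ} {b : AInf p} : imgA p n b = 0 ↔ xi p ^ n ∣ b := by
  rw [imgA, RingHom.comp_apply, mkQ_eq_zero_iff, piMu_pow_dvd_iff]
  refine ⟨fun h => ?_, fun ⟨c, hc⟩ => ⟨toBPlus p (algebraMap _ _ c), by
    rw [hc, map_mul, map_pow]; rfl⟩⟩
  induction n generalizing b with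
  | zero => simp
  | succ n ih =>
    have h0 : theta p b = 0 := by
      have h1 := piBDR_dvd_iff.1 ((dvd_pow_self _ n.succ_ne_zero).trans h)
      rw [RingHom.comp_apply, thetaPlus_toBPlus, thetaC_algebraMap] at h1
      exact Subtype.ext h1
    obtain ⟨b', rfl⟩ : xi p ∣ b := by
      rw [← mem_span_singleton, ← ker_theta]
      exact RingHom.mem_ker.2 h0
    rw [pow_succ', map_mul, show ((toBPlus p).comp (algebraMap (AInf p) (AInfP p))) (xi p) =
      piBDR p from rfl, mul_dvd_mul_iff_left piBDR_ne_zero] at h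
    rw [pow_succ']
    exact mul_dvd_mul_left _ (ih h)

theorem isUnit_natCast_pow (n c : ℕ) : IsUnit ((p : BQuot p n) ^ c) := by
  have h : IsUnit (mkQ p n (qpHom p (p : ℚ_[p]))) :=
    ((isUnit_iff_ne_zero.2 (Nat.cast_ne_zero.2 hp.out.ne_zero : (p : ℚ_[p]) ≠ 0)).map
      (qpHom p)).map (mkQ p n)
  rw [map_natCast, map_natCast] at h
  exact h.pow c

/-- A bounded element divisible by every power of `p` vanishes. -/
theorem eq_zero_of_bdd {n c : ℕ} {x : BQuot p n}
    (h : ∀ N : ℕ, ∃ a : AInf p, (p : BQuot p n) ^ c * x = (p : BQuot p n) ^ N * imgA p n a) :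
    x = 0 := by
  obtain ⟨b, hb⟩ := h 0
  rw [pow_zero, one_mul] at hb
  refine (isUnit_natCast_pow n c).mul_right_eq_zero.1 ?_
  rw [hb, imgA_eq_zero_iff]
  refine xi_pow_dvd_of_forall n b fun N => ?_
  obtain ⟨a, ha⟩ := h N
  exact ⟨a, by rw [← imgA_eq_zero_iff, map_sub, ← hb, ha, map_mul, natCast_pow_eq_imgA, sub_self]⟩

theorem one_add_piMu (n : ℕ) :
    1 + mkQ p n (piMu p) = imgA p n (teichmuller p (eFlat p)) := by
  rw [piMu, muInf, map_sub, map_sub, map_sub, map_one, map_one, map_one, add_sub_cancel]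
  rfl

theorem exists_one_add_xi_mul (n : ℕ) :
    ∃ w : AInf p, 1 + mkQ p n (piMu p) = 1 + imgA p n (xi p * w) := by
  obtain ⟨w, hw, -⟩ := exists_muInf_eq (p := p)
  exact ⟨w, by rw [← hw]; rfl⟩

theorem exists_period : ∃ t : BPlus p, ∀ n,
    InPi p n (mkQ p n t) ∧ IsNilpotent.exp (mkQ p n t) = 1 + mkQ p n (piMu p) := by
  have h : ∀ n, ∃ b : BPlus p,
      InPi p n (mkQ p n b) ∧ IsNilpotent.exp (mkQ p n b) = 1 + mkQ p n (piMu p) := fun n => by
    obtain ⟨c, hc⟩ := exists_logQ (p := p) n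
    obtain ⟨s, hs, -, he⟩ := hc _ (exists_one_add_xi_mul n)
    obtain ⟨b, rfl⟩ := Ideal.Quotient.mk_surjective s
    exact ⟨b, hs, he⟩
  choose b hb hbe using h
  obtain ⟨t, ht⟩ := exists_limit_bPlus b fun m n hmn => by
    rw [← piMu_pow_dvd_iff, ← mkQ_eq_zero_iff, map_sub, sub_eq_zero]
    let f : BQuot p n →+* BQuot p m := Ideal.Quotient.factor
      (span_singleton_le_span_singleton.2 (pow_dvd_pow (piMu p) hmn))
    have hf : ∀ x, f (mkQ p n x) = mkQ p m x := fun _ => rfl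
    have hpi : InPi p m (mkQ p m (b n)) := by
      have h1 := map_dvd f (hb n)
      rw [hf, hf] at h1
      exact h1
    refine expQ_injective (hb m) hpi ?_
    rw [hbe m, ← hf (b n), ← IsNilpotent.map_exp (hb n).isNilpotent f, hbe n, map_add, map_one, hf]
  refine ⟨t, fun n => ?_⟩
  have e : mkQ p n t = mkQ p n (b n) := by
    rw [← sub_eq_zero, ← map_sub, mkQ_eq_zero_iff, piMu_pow_dvd_iff]
    exact ht n
  rw [e]
  exact ⟨hb n, hbe n⟩

variable (p) in
/-- **Fontaine's period** `t = log [ε]`. -/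
def tPeriod : BPlus p := (exists_period (p := p)).choose

theorem inPi_tPeriod (n : ℕ) : InPi p n (mkQ p n (tPeriod p)) :=
  ((exists_period (p := p)).choose_spec n).1

theorem exp_tPeriod (n : ℕ) :
    IsNilpotent.exp (mkQ p n (tPeriod p)) = 1 + mkQ p n (piMu p) :=
  ((exists_period (p := p)).choose_spec n).2

/-- **The period is a uniformiser congruent to `[ε] - 1`.** -/
theorem exists_tPeriod_eq :
    ∃ u : (BPlus p)ˣ, tPeriod p = piMu p * (u : BPlus p) ∧ thetaPlus p (u : BPlus p) = 1 := by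
  have hx := inPi_tPeriod (p := p) 2
  have h := exp_tPeriod (p := p) 2
  obtain ⟨r, hr⟩ := (self_dvd_exp_sub_one hx).2
  rw [← pow_two, hx.pow_eq_zero, zero_mul, sub_eq_zero, sub_eq_iff_eq_add, h,
    add_comm (1 : BQuot p 2), add_left_inj] at hr
  have hd : piMu p ^ 2 ∣ tPeriod p - piMu p := by
    rw [← mkQ_eq_zero_iff, map_sub, ← hr, sub_self]
  obtain ⟨a, ha⟩ := hd
  have h1 : thetaPlus p (1 + piMu p * a) = 1 := by
    rw [map_add, map_one, map_mul, thetaPlus_piMu, zero_mul, add_zero]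
  have hu : IsUnit (1 + piMu p * a) := isUnit_iff_thetaPlus.2 (by rw [h1]; exact one_ne_zero)
  exact ⟨hu.unit, by rw [IsUnit.unit_spec]; linear_combination ha,
    by rw [IsUnit.unit_spec, h1]⟩

theorem span_piMu_pow_le (σ : G) (n : ℕ) :
    span {piMu p ^ n} ≤ (span {piMu p ^ n}).comap (bplusGal σ) := by
  obtain ⟨q, hq, -⟩ := exists_smul_piMu σ
  rw [span_singleton_le_iff_mem, Ideal.mem_comap, mem_span_singleton, map_pow, ← smul_bplus_def,
    hq, mul_pow]
  exact dvd_mul_left _ _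

/-- **The period is an eigenvector with the cyclotomic character.** -/
theorem smul_tPeriod (σ : G) :
    σ • tPeriod p = qpHom p ((chi p σ : ℤ_[p]) : ℚ_[p]) * tPeriod p := by
  refine sub_eq_zero.1 (eq_zero_of_dvd_completion _ _ bdrIdeal_eq fun n => ?_)
  change piBDR p ^ n ∣ _
  rw [← piMu_pow_dvd_iff, ← mkQ_eq_zero_iff]
  obtain ⟨c, hc⟩ := exists_logQ (p := p) n
  have ht : Bdd p n c (mkQ p n (tPeriod p)) := by
    obtain ⟨s, hs, hsb, he⟩ := hc _ (exists_one_add_xi_mul n)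
    rwa [expQ_injective (inPi_tPeriod n) hs (by rw [exp_tPeriod, he])]
  obtain ⟨at_, hat⟩ := ht
  refine eq_zero_of_bdd (c := c) fun N => ?_
  set P : ℕ := p ^ N
  set k := ((chi p σ : ℤ_[p]).toZModPow N).val
  obtain ⟨y, hy, hsplit⟩ := exists_flat_split σ N
  obtain ⟨w, hw⟩ := exists_mul_of_untilt_one hy
  obtain ⟨s, hs, ⟨as, has⟩, hse⟩ := hc (imgA p n (teichmuller p y))
    ⟨w, by rw [← hw, map_sub, map_one, add_sub_cancel]⟩
  let fσ : BQuot p n →+* BQuot p n :=
    Ideal.quotientMap _ (bplusGal σ) (span_piMu_pow_le σ n)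
  have hfσ : ∀ x, fσ (mkQ p n x) = mkQ p n (σ • x) := fun _ => rfl
  have hpi : InPi p n (mkQ p n (σ • tPeriod p)) := by
    obtain ⟨r, hr⟩ := inPi_tPeriod (p := p) n
    obtain ⟨q, hq, -⟩ := exists_smul_piMu σ
    rw [← hfσ, hr, map_mul, hfσ, hq, map_mul]
    exact dvd_mul_of_dvd_left (dvd_mul_left _ _) _
  have heq : mkQ p n (σ • tPeriod p) =
      (k : BQuot p n) * mkQ p n (tPeriod p) + (P : BQuot p n) * s := by
    refine expQ_injective hpi
      (dvd_add (dvd_mul_of_dvd_right (inPi_tPeriod n) _) (dvd_mul_of_dvd_right hs _)) ?_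
    rw [IsNilpotent.exp_add_of_commute (Commute.all _ _)
      (InPi.isNilpotent (dvd_mul_of_dvd_right (inPi_tPeriod n) _))
      (InPi.isNilpotent (dvd_mul_of_dvd_right hs _)), expQ_nsmul (inPi_tPeriod n), expQ_nsmul hs,
      exp_tPeriod, hse, ← hfσ, ← IsNilpotent.map_exp (inPi_tPeriod n).isNilpotent fσ, exp_tPeriod,
      one_add_piMu]
    change mkQ p n (bplusGal σ (toBPlus p (algebraMap _ _ (teichmuller p (eFlat p))))) = _
    rw [bplusGal_toBPlus, ainfPGal_algebraMap, ainfGal, WittVector.map_teichmuller, hsplit,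
      map_mul, map_pow, map_pow, ← map_pow (imgA p n), ← map_pow (imgA p n), ← map_mul (imgA p n)]
    rfl
  have hk : (chi p σ : ℤ_[p]) - (k : ℤ_[p]) ∈ span {(p : ℤ_[p]) ^ N} := by
    have : NeZero (p ^ N) := ⟨pow_ne_zero N hp.out.ne_zero⟩
    rw [← PadicInt.ker_toZModPow, RingHom.mem_ker, map_sub, map_natCast, sub_eq_zero]
    exact (ZMod.natCast_zmod_val _).symm
  obtain ⟨e, he⟩ := mem_span_singleton.1 hk
  rw [sub_eq_iff_eq_add] at he
  refine ⟨as - zpHom p e * at_, ?_⟩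
  rw [map_sub, heq, map_mul, he, PadicInt.coe_add, PadicInt.coe_mul, PadicInt.coe_pow,
    PadicInt.coe_natCast, PadicInt.coe_natCast, map_add, map_mul, map_pow, map_natCast, map_natCast,
    map_add, map_mul, map_pow, map_natCast, map_natCast, map_sub (imgA p n), map_mul (imgA p n),
    ← has, ← hat, imgA_zpHom, show (P : BQuot p n) = (p : BQuot p n) ^ N by
      rw [Nat.cast_pow]]
  ring

end FA.PadicHodge
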