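import Fermat.Agent.PadicHodge.Rep
import Fermat.Agent.PadicHodge.Period

/-!
# De Rham representations are Hodge–Tate

The filtration of `B_dR` by the powers of the uniformiser has graded pieces `ℂ_p (i)`, so the
dimension of `(B_dR ⊗ V) ^ G` is at most the sum of those of `(ℂ_p (i) ⊗ V) ^ G`.
-/

set_option autoImplicit false
set_option linter.unusedSectionVars false

noncomputable section

open Finset FA.TateSen FA.BDR FA.Sen
open scoped Matrix

namespace FA.PadicHodge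

variable {p : ℕ} [hp : Fact p.Prime] {d : Type} [Fintype d] [DecidableEq d]

local notation "Cp" => ℂ_[p]
local notation "G" => PadicAlgCl p ≃ₐ[ℚ_[p]] PadicAlgCl p
local notation "ι" => algebraMap (BPlus p) (BField p)

theorem iota_injective : Function.Injective (algebraMap (BPlus p) (BField p)) :=
  IsFractionRing.injective (BPlus p) (BField p)

/-- The step `n - N` of the filtration on `(B_dR ⊗ V) ^ G`. -/
def filD (ρ : G → Matrix d d ℚ_[p]) (N n : ℕ) : Submodule ℚ_[p] (d → BField p) where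
  carrier := {x | x ∈ dR ρ ∧ ∀ i, ∃ b : BPlus p, x i * ι (piMu p ^ N) = ι (b * piMu p ^ n)}
  add_mem' := fun {x y} hx hy => by
    refine ⟨add_mem hx.1 hy.1, fun i => ?_⟩
    obtain ⟨a, ha⟩ := hx.2 i
    obtain ⟨b, hb⟩ := hy.2 i
    exact ⟨a + b, by rw [Pi.add_apply, add_mul, ha, hb, ← map_add, ← add_mul]⟩
  zero_mem' := ⟨zero_mem _, fun i => ⟨0, by rw [Pi.zero_apply, zero_mul, zero_mul, map_zero]⟩⟩
  smul_mem' := fun c {x} hx => by
    refine ⟨(dR ρ).smul_mem c hx.1, fun i => ?_⟩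
    obtain ⟨a, ha⟩ := hx.2 i
    refine ⟨qpHom p c * a, ?_⟩
    rw [Pi.smul_apply, qp_smul_def, mul_assoc, ha, mul_assoc (qpHom p c),
      map_mul ι (qpHom p c)]
    rfl

theorem filD_le_dR (ρ : G → Matrix d d ℚ_[p]) (N n : ℕ) : filD ρ N n ≤ dR ρ := fun _ hx => hx.1

theorem filD_finite (ρ : G → Matrix d d ℚ_[p]) (N n : ℕ) :
    FiniteDimensional ℚ_[p] (filD ρ N n) := by
  have := (finrank_dR_le ρ).1
  exact Submodule.finiteDimensional_of_le (filD_le_dR ρ N n)

theorem filD_antitone (ρ : G → Matrix d d ℚ_[p]) (N : ℕ) {m n : ℕ} (h : m ≤ n) :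
    filD ρ N n ≤ filD ρ N m := fun x hx => by
  refine ⟨hx.1, fun i => ?_⟩
  obtain ⟨b, hb⟩ := hx.2 i
  refine ⟨b * piMu p ^ (n - m), ?_⟩
  rw [hb, mul_assoc, ← pow_add, Nat.sub_add_cancel h]

/-- The leading coefficients of an element of the filtration. -/
def coord {ρ : G → Matrix d d ℚ_[p]} {N n : ℕ} (x : filD ρ N n) (i : d) : BPlus p :=
  (x.2.2 i).choose

theorem coord_spec {ρ : G → Matrix d d ℚ_[p]} {N n : ℕ} (x : filD ρ N n) (i : d) :
    (x : d → BField p) i * ι (piMu p ^ N) = ι (coord x i * piMu p ^ n) :=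
  (x.2.2 i).choose_spec

theorem coord_eq {ρ : G → Matrix d d ℚ_[p]} {N n : ℕ} (x : filD ρ N n) (i : d) {b : BPlus p}
    (h : (x : d → BField p) i * ι (piMu p ^ N) = ι (b * piMu p ^ n)) : coord x i = b :=
  mul_right_cancel₀ (pow_ne_zero n piMu_ne_zero) (iota_injective ((coord_spec x i).symm.trans h))

theorem theta_coord_mem {ρ : G → Matrix d d ℚ_[p]} {N n : ℕ} (x : filD ρ N n) :
    (fun i => thetaPlus p (coord x i)) ∈ dHT (cpRep ρ) ((n : ℤ) - N) := by
  intro σ
  choose y hy hθy using fun k => exists_smul_mul_pow σ (coord_spec x k)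
  funext i
  have h : coord x i = ∑ k, qpHom p (ρ σ i k) * y k := by
    refine coord_eq x i ?_
    conv_lhs => rw [← x.2.1 σ]
    simp only [actB, Matrix.mulVec, dotProduct, Matrix.map_apply]
    rw [sum_mul, sum_mul, map_sum]
    refine sum_congr rfl fun k _ => ?_
    rw [mul_assoc, hy k, mul_assoc (qpHom p (ρ σ i k)), map_mul ι (qpHom p (ρ σ i k))]
    rfl
  change twist p ((n : ℤ) - N) σ *
    (cpRep ρ σ *ᵥ fun k => gal σ (thetaPlus p (coord x k))) i = thetaPlus p (coord x i)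
  rw [h, map_sum]
  simp only [Matrix.mulVec, dotProduct, cpRep, Matrix.map_apply, mul_sum]
  refine sum_congr rfl fun k _ => ?_
  rw [map_mul, thetaPlus_qpHom, hθy k]
  ring

/-- The graded map to `(ℂ_p (n - N) ⊗ V) ^ G`. -/
def lead (ρ : G → Matrix d d ℚ_[p]) (N n : ℕ) :
    filD ρ N n →ₗ[ℚ_[p]] dHT (cpRep ρ) ((n : ℤ) - N) where
  toFun x := ⟨fun i => thetaPlus p (coord x i), theta_coord_mem x⟩
  map_add' x y := Subtype.ext (funext fun i => by
    change thetaPlus p (coord (x + y) i) = thetaPlus p (coord x i) + thetaPlus p (coord y i)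
    rw [← map_add]
    congr 1
    refine coord_eq _ i ?_
    rw [Submodule.coe_add, Pi.add_apply, add_mul, coord_spec, coord_spec, ← map_add, ← add_mul])
  map_smul' c x := Subtype.ext (funext fun i => by
    change thetaPlus p (coord (c • x) i) = c • thetaPlus p (coord x i)
    rw [Algebra.smul_def, ← thetaPlus_qpHom, ← map_mul]
    congr 1
    refine coord_eq _ i ?_
    rw [SetLike.val_smul, Pi.smul_apply, qp_smul_def, mul_assoc, coord_spec,
      mul_assoc (qpHom p c), map_mul ι (qpHom p c)]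
    rfl)

theorem finrank_filD_le (ρ : G → Matrix d d ℚ_[p]) (N n : ℕ) :
    Module.finrank ℚ_[p] (filD ρ N n) ≤
      Module.finrank ℚ_[p] (dHT (cpRep ρ) ((n : ℤ) - N)) +
        Module.finrank ℚ_[p] (filD ρ N (n + 1)) := by
  have := filD_finite ρ N n
  have := filD_finite ρ N (n + 1)
  rw [← LinearMap.finrank_range_add_finrank_ker (lead ρ N n)]
  refine add_le_add (Submodule.finrank_le _) ?_
  rw [← Submodule.finrank_map_subtype_eq (filD ρ N n) (LinearMap.ker (lead ρ N n))]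
  refine Submodule.finrank_mono ?_
  rintro _ ⟨x, hx, rfl⟩
  refine ⟨x.2.1, fun i => ?_⟩
  obtain ⟨a, ha⟩ := piMu_dvd_iff.2
    (congrFun (congrArg Subtype.val (LinearMap.mem_ker.1 hx)) i :
      thetaPlus p (coord x i) = 0)
  refine ⟨a, ?_⟩
  rw [Submodule.subtype_apply, coord_spec, ha, pow_succ']
  ring_nf

theorem exists_filD_top (ρ : G → Matrix d d ℚ_[p]) : ∃ N, filD ρ N 0 = dR ρ := by
  have := (finrank_dR_le ρ).1
  set b := Module.finBasis ℚ_[p] (dR ρ)
  have hk : ∀ x : BField p, ∃ k, ∀ N, k ≤ N → ∃ a, x * ι (piMu p ^ N) = ι a := fun x => by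
    rcases eq_or_ne x 0 with rfl | hx
    · exact ⟨0, fun N _ => ⟨0, by rw [zero_mul, map_zero]⟩⟩
    obtain ⟨k, m, v, hv⟩ := exists_mul_pow_eq hx
    refine ⟨k, fun N hN => ⟨(v : BPlus p) * piMu p ^ m * piMu p ^ (N - k), ?_⟩⟩
    rw [map_mul _ _ (piMu p ^ (N - k)), ← hv, mul_assoc, ← map_mul, ← pow_add,
      Nat.add_sub_cancel' hN]
  choose k hk using hk
  refine ⟨univ.sup fun q : Fin _ × d => k ((b q.1 : d → BField p) q.2),
    le_antisymm (filD_le_dR ρ _ 0) fun x hx => ?_⟩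
  have hx' := b.sum_repr ⟨x, hx⟩
  have hxe : x = ∑ a, b.repr ⟨x, hx⟩ a • (b a : d → BField p) := by
    have h1 := congrArg Subtype.val hx'
    rw [AddSubmonoidClass.coe_finsetSum] at h1
    exact h1.symm
  rw [hxe]
  refine sum_mem fun a _ => Submodule.smul_mem _ _ ⟨(b a).2, fun i => ?_⟩
  obtain ⟨e, he⟩ := hk ((b a : d → BField p) i) _ (Finset.le_sup
    (f := fun q : Fin _ × d => k ((b q.1 : d → BField p) q.2)) (mem_univ (a, i)))
  exact ⟨e, by rw [pow_zero, mul_one]; exact he⟩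

theorem exists_filD_bot (ρ : G → Matrix d d ℚ_[p]) (N : ℕ) : ∃ M, filD ρ N M = ⊥ := by
  classical
  have hex : ∃ r, ∃ M, Module.finrank ℚ_[p] (filD ρ N M) = r := ⟨_, 0, rfl⟩
  obtain ⟨M, hM⟩ := Nat.find_spec hex
  have hstab : ∀ n, filD ρ N M ≤ filD ρ N n := fun n => by
    have := filD_finite ρ N M
    have h := Submodule.eq_of_le_of_finrank_le (filD_antitone ρ N (le_max_left M n)) (by
      rw [hM]
      exact Nat.find_min' hex ⟨_, rfl⟩)
    rw [← h]
    exact filD_antitone ρ N (le_max_right M n)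
  refine ⟨M, (Submodule.eq_bot_iff _).2 fun x hx => funext fun i => ?_⟩
  obtain ⟨b, hb⟩ := (hstab 0 hx).2 i
  rw [pow_zero, mul_one] at hb
  have hb0 : b = 0 := by
    refine eq_zero_of_dvd_completion _ _ bdrIdeal_eq fun n => ?_
    change piBDR p ^ n ∣ b
    rw [← piMu_pow_dvd_iff]
    obtain ⟨c, hc⟩ := (hstab n hx).2 i
    exact ⟨c, iota_injective (by rw [← hb, hc, mul_comm])⟩
  rw [hb0, map_zero, mul_eq_zero] at hb
  exact hb.resolve_right ((map_ne_zero_iff ι iota_injective).2 (pow_ne_zero N piMu_ne_zero))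

theorem exists_finrank_dR_le_sum (ρ : G → Matrix d d ℚ_[p]) :
    ∃ s : Finset ℤ, Module.finrank ℚ_[p] (dR ρ) ≤
      ∑ j ∈ s, Module.finrank ℚ_[p] (dHT (cpRep ρ) j) := by
  classical
  obtain ⟨N, hN⟩ := exists_filD_top ρ
  obtain ⟨M, hM⟩ := exists_filD_bot ρ N
  have h : ∀ m, Module.finrank ℚ_[p] (filD ρ N 0) ≤
      ∑ n ∈ range m, Module.finrank ℚ_[p] (dHT (cpRep ρ) ((n : ℤ) - N)) +
        Module.finrank ℚ_[p] (filD ρ N m) := fun m => by
    induction m with
    | zero => rw [range_zero, sum_empty, zero_add]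
    | succ m ih =>
      rw [sum_range_succ, add_assoc]
      exact ih.trans (Nat.add_le_add_left (finrank_filD_le ρ N m) _)
  refine ⟨(range M).image fun n : ℕ => (n : ℤ) - N, ?_⟩
  rw [sum_image fun a _ b _ hab => by simpa using hab, ← hN]
  refine (h M).trans_eq ?_
  rw [hM, finrank_bot, add_zero]

/-- **De Rham implies Hodge–Tate.** -/
theorem IsDeRham.isHodgeTate {ρ : G → Matrix d d ℚ_[p]} (h : IsDeRham ρ) :
    IsHodgeTate (cpRep ρ) := by
  obtain ⟨s, hs⟩ := exists_finrank_dR_le_sum ρ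
  rw [(isDeRham_iff_finrank ρ).1 h] at hs
  exact (isHodgeTate_iff_finrank _).2 ⟨s, le_antisymm (sum_finrank_dHT_le _ s) hs⟩

end FA.PadicHodge
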