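import Fermat.Agent.PadicHodge.Criterion
import Fermat.Agent.PadicHodge.DeRham
import Mathlib.LinearAlgebra.Matrix.Notation

/-!
# Tate twists and a representation that is not Hodge–Tate

Fontaine's period makes every sum of `ℚ_p (j)` de Rham. The unipotent representation given by the
logarithm of the cyclotomic character has a nonzero nilpotent Sen operator.
-/

set_option autoImplicit false
set_option linter.unusedSectionVars false

noncomputable section

open Finset FA.TateSen FA.BDR FA.Sen NormedSpace
open scoped Matrix Matrix.Norms.Elementwise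

namespace FA.PadicHodge

variable {p : ℕ} [hp : Fact p.Prime] {d : Type} [Fintype d] [DecidableEq d]

local notation "Cp" => ℂ_[p]
local notation "G" => PadicAlgCl p ≃ₐ[ℚ_[p]] PadicAlgCl p
local notation "ι" => algebraMap (BPlus p) (BField p)
local notation "Md" => Matrix d d ℂ_[p]

/-- A sum of `ℚ_p (j)`. -/
def tateRep (j : d → ℤ) (σ : G) : Matrix d d ℚ_[p] :=
  Matrix.diagonal fun i => ((chi p σ : ℤ_[p]) : ℚ_[p]) ^ j i

theorem isQpRep_tateRep (j : d → ℤ) : IsQpRep p d (tateRep j) where
  cont := by
    have h0 : Continuous fun σ : G => (chi p σ : ℤ_[p]) :=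
      Units.continuous_val.comp continuous_chi
    have h1 : Continuous fun σ : G => ((chi p σ : ℤ_[p]) : ℚ_[p]) :=
      continuous_subtype_val.comp h0
    exact Continuous.matrix_diagonal (continuous_pi fun i => h1.zpow₀ (j i)
      fun σ => Or.inl (chi_ne_zero σ))
  map_one := by
    simp only [tateRep, map_one, Units.val_one, PadicInt.coe_one, one_zpow, Matrix.diagonal_one]
  map_mul σ τ := by
    simp only [tateRep, map_mul, Units.val_mul, PadicInt.coe_mul, mul_zpow,
      Matrix.diagonal_mul_diagonal]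

theorem cpRep_tateRep (j : d → ℤ) : cpRep (tateRep (p := p) j) = twistRep j := by
  funext σ
  rw [cpRep, tateRep, Matrix.diagonal_map (map_zero _)]
  rfl

/-- **Every sum of `ℚ_p (j)` is de Rham**: a basis is given by powers of the period. -/
theorem isDeRham_tateRep (j : d → ℤ) : IsDeRham (tateRep (p := p) j) := by
  obtain ⟨u, hu, -⟩ := exists_tPeriod_eq (p := p)
  set T : BField p := ι (tPeriod p)
  have hT : T ≠ 0 := (map_ne_zero_iff _ iota_injective).2 (by
    rw [hu]; exact mul_ne_zero piMu_ne_zero u.ne_zero)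
  set X : Matrix d d (BField p) := Matrix.diagonal fun i => T ^ (-j i)
  obtain ⟨U, hU⟩ : IsUnit X :=
    Matrix.isUnit_diagonal.2 (Pi.isUnit_iff.2 fun i => (zpow_ne_zero _ hT).isUnit)
  refine ⟨U, fun σ => ?_⟩
  set a : BField p := qpB p ((chi p σ : ℤ_[p]) : ℚ_[p]) with ha
  have hz : ∀ z : ℤ, σ • T ^ z = (a * T) ^ z := fun z => by
    rw [← MulSemiringAction.toRingHom_apply, map_zpow₀, MulSemiringAction.toRingHom_apply]
    simp only [T, a, qpB, RingHom.comp_apply, smul_algebraMap_bfield, smul_tPeriod, map_mul]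
  have ha0 : a ≠ 0 := (map_ne_zero_iff _ (qpB p).injective).2 (chi_ne_zero σ)
  rw [hU, tateRep, Matrix.diagonal_map (map_zero _),
    Matrix.diagonal_map (smul_zero σ), Matrix.diagonal_mul_diagonal]
  refine congrArg Matrix.diagonal (funext fun i => ?_)
  rw [hz, map_zpow₀, ← ha, mul_zpow, ← mul_assoc, ← zpow_add₀ ha0, add_neg_cancel, zpow_zero,
    one_mul]

/-- The unipotent representation given by the logarithm of the character. -/
def unipRep (σ : G) : Matrix (Fin 2) (Fin 2) ℚ_[p] := !![1, logChi p σ; 0, 1]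

/-- Its Sen operator. -/
def unipOp : Matrix (Fin 2) (Fin 2) ℂ_[p] := !![0, 1; 0, 0]

theorem isQpRep_unipRep : IsQpRep p (Fin 2) (unipRep (p := p)) where
  cont := continuous_pi fun i => continuous_pi fun k => by
    fin_cases i <;> fin_cases k
    all_goals simp only [unipRep]
    all_goals first
      | exact continuous_const
      | exact continuous_logChi
  map_one := by
    rw [unipRep, logChi_one]
    exact Matrix.one_fin_two.symm
  map_mul σ τ := by
    simp only [unipRep, logChi_mul, Matrix.mul_fin_two]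
    simp [add_comm]

theorem cpRep_unipRep (σ : G) : cpRep unipRep σ = 1 + logChi p σ • unipOp := by
  ext i k
  rw [cpRep, Matrix.map_apply, Matrix.add_apply, Matrix.smul_apply, Algebra.smul_def]
  fin_cases i <;> fin_cases k <;> simp [unipRep, unipOp]

theorem unipOp_mul_self : (unipOp : Matrix (Fin 2) (Fin 2) ℂ_[p]) * unipOp = 0 := by
  ext i k
  fin_cases i <;> fin_cases k <;> simp [unipOp]

theorem expM_of_sq_eq_zero {X : Md} (hX : ‖X‖ ≤ rad2 p) (h : X * X = 0) : exp X = 1 + X := by
  have h1 := hasSum_sum_of_ne_finset_zero (s := range 2) (L := SummationFilter.unconditional ℕ)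
    (f := fun n => ((n.factorial : ℕ) : ℚ_[p])⁻¹ • X ^ n) fun n hn => by
      obtain ⟨k, rfl⟩ := Nat.exists_eq_add_of_le (not_lt.1 (mem_range.not.1 hn))
      rw [pow_add, pow_two, h, zero_mul, smul_zero]
  simp only [sum_range_succ, sum_range_zero, Nat.factorial_zero, Nat.factorial_one, Nat.cast_one,
    inv_one, one_smul, pow_zero, pow_one, zero_add] at h1
  exact (hasSum_exp hX).unique h1

theorem isSenOperator_unipRep :
    IsSenOperator p (Fin 2) (cpRep (unipRep (p := p))) unipOp := by
  obtain ⟨n, hn⟩ := exists_small_log (unipOp (p := p))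
    (inv_pos.2 (pow_pos (pR_pos (p := p)) 3)) 2
  refine ⟨1, 2 + n, ⟨Nat.le_add_right 2 n, fun g hg => ?_, fun σ i k => ?_, fun σ hσ => ?_⟩,
    fun i k => ?_, 2 + n, fun σ hσ => ?_⟩
  · rw [FA.Sen.conj_one, cpRep_unipRep, logChi_eq_zero_of_ker hg, zero_smul, add_zero]
  · rw [FA.Sen.conj_one]
    exact (levelC p (2 + n)).algebraMap_mem (unipRep σ i k)
  · rw [FA.Sen.conj_one, cpRep_unipRep, add_sub_cancel_left]
    exact hn σ hσ
  · fin_cases i <;> fin_cases k
    all_goals first
      | exact zero_mem (levelC p (2 + n))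
      | exact one_mem (levelC p (2 + n))
  · rw [FA.Sen.conj_one, cpRep_unipRep, expM_of_sq_eq_zero ((hn σ hσ).trans rad3_le_rad2)
      (by rw [smul_mul_smul_comm, unipOp_mul_self, smul_zero])]

theorem eq_zero_of_isSemisimpleInt {Θ : Md} (h : IsSemisimpleInt Θ) (h2 : Θ * Θ = 0) : Θ = 0 := by
  obtain ⟨Q, j, rfl⟩ := h
  set D : Md := Matrix.diagonal fun i => (j i : Cp) with hD
  have h3 : D * D = 0 := by
    have h3 := congrArg (fun M : Md => (↑Q⁻¹ : Md) * M * (Q : Md)) h2
    simpa only [mul_assoc, Units.inv_mul_cancel_left, Units.inv_mul, mul_one, mul_zero,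
      zero_mul] using h3
  have h4 : D = 0 := by
    rw [hD, Matrix.diagonal_mul_diagonal, Matrix.diagonal_eq_zero] at h3
    rw [hD, Matrix.diagonal_eq_zero]
    exact funext fun i => mul_self_eq_zero.1 (congrFun h3 i)
  rw [h4, mul_zero, zero_mul]

theorem not_isHodgeTate_unipRep : ¬ IsHodgeTate (cpRep (unipRep (p := p))) := fun h => by
  have h1 := (isHodgeTate_iff_semisimpleInt (isRep_cpRep isQpRep_unipRep)
    isSenOperator_unipRep).1 h
  have h2 := congrFun (congrFun (eq_zero_of_isSemisimpleInt h1 unipOp_mul_self) 0) 1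
  simp [unipOp] at h2

theorem not_isDeRham_unipRep : ¬ IsDeRham (unipRep (p := p)) := fun h =>
  not_isHodgeTate_unipRep h.isHodgeTate

end FA.PadicHodge
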