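import Fermat.Agent.PadicHodge.Semilinear
import Fermat.Agent.BDR.Invariants
import Fermat.Agent.Sen.Cocycle
import Mathlib.LinearAlgebra.Matrix.NonsingularInverse

/-!
# Admissible representations for `B_dR` and for `⊕ ℂ_p (j)`

The invariants of a representation of dimension `d` tensored with either ring have dimension at
most `d`; the representation is de Rham, respectively Hodge–Tate, exactly in the case of equality.
-/

set_option autoImplicit false
set_option linter.unusedSectionVars false

noncomputable section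

open Finset FA.TateSen FA.BDR FA.Sen
open scoped Matrix

namespace FA.PadicHodge

variable {p : ℕ} [hp : Fact p.Prime] {d : Type} [Fintype d] [DecidableEq d]

local notation "Cp" => ℂ_[p]
local notation "G" => PadicAlgCl p ≃ₐ[ℚ_[p]] PadicAlgCl p
local notation "ι" => algebraMap (BPlus p) (BField p)

variable (p d) in
/-- A continuous representation on `ℚ_p ^ d`. -/
structure IsQpRep (ρ : G → Matrix d d ℚ_[p]) : Prop where
  cont : Continuous ρ
  map_one : ρ 1 = 1
  map_mul : ∀ σ τ, ρ (σ * τ) = ρ σ * ρ τ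

/-- The semilinear representation on `ℂ_p ^ d`. -/
def cpRep (ρ : G → Matrix d d ℚ_[p]) (σ : G) : Matrix d d Cp := (ρ σ).map (algebraMap ℚ_[p] Cp)

theorem isRep_cpRep {ρ : G → Matrix d d ℚ_[p]} (hρ : IsQpRep p d ρ) :
    IsRep p d (cpRep ρ) where
  cont := continuous_pi fun i => continuous_pi fun k =>
    (continuous_algebraMap ℚ_[p] Cp).comp ((continuous_apply k).comp ((continuous_apply i).comp
      hρ.cont))
  map_one := by rw [cpRep, hρ.map_one, Matrix.map_one _ (map_zero _) (map_one _)]
  cocycle σ τ := by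
    rw [cpRep, cpRep, cpRep, hρ.map_mul, Matrix.map_mul]
    congr 1
    ext i k
    rw [galM_apply, Matrix.map_apply, gal_scalar]

instance bfieldField : Field (BField p) := IsFractionRing.toField (BPlus p)

variable (p) in
/-- The `p`-adic numbers in `B_dR`. -/
def qpB : ℚ_[p] →+* BField p := (algebraMap (BPlus p) (BField p)).comp (qpHom p)

instance bfieldAlgebra : Algebra ℚ_[p] (BField p) := (qpB p).toAlgebra

theorem smul_qpB (σ : G) (c : ℚ_[p]) : σ • qpB p c = qpB p c := by
  rw [qpB, RingHom.comp_apply, smul_algebraMap_bfield, smul_qpHom]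

theorem qp_smul_def (c : ℚ_[p]) (x : BField p) : c • x = qpB p c * x := Algebra.smul_def c x

/-- The action on `B_dR ⊗ V`. -/
def actB (ρ : G → Matrix d d ℚ_[p]) (σ : G) (x : d → BField p) : d → BField p :=
  (ρ σ).map (qpB p) *ᵥ fun i => σ • x i

theorem actB_smul (ρ : G → Matrix d d ℚ_[p]) (σ : G) (a : BField p) (x : d → BField p) :
    actB ρ σ (a • x) = (σ • a) • actB ρ σ x := by
  rw [actB, actB, ← Matrix.mulVec_smul]
  congr 1
  funext i
  exact smul_mul' σ a (x i)

theorem actB_add (ρ : G → Matrix d d ℚ_[p]) (σ : G) (x y : d → BField p) :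
    actB ρ σ (x + y) = actB ρ σ x + actB ρ σ y := by
  rw [actB, actB, actB, ← Matrix.mulVec_add]
  congr 1
  funext i
  exact smul_add σ (x i) (y i)

theorem actB_zero (ρ : G → Matrix d d ℚ_[p]) (σ : G) : actB ρ σ 0 = 0 := by
  have e : (fun i => σ • ((0 : d → BField p) i)) = 0 := funext fun _ => smul_zero σ
  rw [actB, e, Matrix.mulVec_zero]

theorem actB_sum (ρ : G → Matrix d d ℚ_[p]) (σ : G) {J : Type*} (s : Finset J)
    (v : J → d → BField p) : actB ρ σ (∑ j ∈ s, v j) = ∑ j ∈ s, actB ρ σ (v j) := by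
  classical
  induction s using Finset.induction with
  | empty => rw [sum_empty, sum_empty, actB_zero]
  | insert a s ha ih => rw [sum_insert ha, sum_insert ha, actB_add, ih]

/-- The invariants `(B_dR ⊗ V) ^ G`. -/
def dR (ρ : G → Matrix d d ℚ_[p]) : Submodule ℚ_[p] (d → BField p) where
  carrier := {x | ∀ σ, actB ρ σ x = x}
  add_mem' hx hy σ := by rw [actB_add, hx σ, hy σ]
  zero_mem' σ := actB_zero ρ σ
  smul_mem' c x hx σ := by
    rw [show c • x = qpB p c • x from funext fun i => qp_smul_def c (x i), actB_smul, smul_qpB,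
      hx σ]

theorem mem_dR {ρ : G → Matrix d d ℚ_[p]} {x : d → BField p} :
    x ∈ dR ρ ↔ ∀ σ, actB ρ σ x = x := Iff.rfl

theorem linearIndependent_dR {ρ : G → Matrix d d ℚ_[p]} {J : Type*} [Fintype J] {x : J → dR ρ}
    (hx : LinearIndependent ℚ_[p] x) :
    LinearIndependent (BField p) fun j => (x j : d → BField p) := by
  refine linearIndependent_of_eigen (K := ℚ_[p]) (W := Unit) (fun _ => ())
    (fun j => (x j : d → BField p)) (fun σ : G => MulSemiringAction.toRingHom G (BField p) σ)
    (actB ρ) (fun _ _ => 1) (fun σ a => ?_) (actB_zero ρ) (fun _ _ => one_ne_zero)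
    (fun a _ _ h => ⟨fun _ => ?_, fun h' => absurd rfl h'⟩) (fun v α h i _ => ?_)
  · rw [actB_sum]
    exact sum_congr rfl fun j _ => by
      rw [actB_smul, (x j).2 σ, mul_one, MulSemiringAction.toRingHom_apply]
  · obtain ⟨c, hc⟩ := (bField_invariants a).1 fun σ => by
      simpa [MulSemiringAction.toRingHom_apply] using h σ
    exact ⟨c, hc⟩
  · refine Fintype.linearIndependent_iff.1 hx α ?_ i
    refine Subtype.ext ?_
    rw [AddSubmonoidClass.coe_finsetSum, ZeroMemClass.coe_zero, ← h,
      filter_true_of_mem fun _ _ => rfl]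
    rfl

/-- **`dim (B_dR ⊗ V) ^ G ≤ dim V`.** -/
theorem finrank_dR_le (ρ : G → Matrix d d ℚ_[p]) :
    FiniteDimensional ℚ_[p] (dR ρ) ∧ Module.finrank ℚ_[p] (dR ρ) ≤ Fintype.card d :=
  rank_le_of_linearIndependent fun J _ x hx => by
    simpa using (linearIndependent_dR hx).fintype_card_le_finrank

/-- De Rham: a basis of `B_dR ⊗ V` is invariant. -/
def IsDeRham (ρ : G → Matrix d d ℚ_[p]) : Prop :=
  ∃ X : (Matrix d d (BField p))ˣ,
    ∀ σ : G, (ρ σ).map (qpB p) * (X : Matrix d d (BField p)).map (σ • ·) = X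

theorem isDeRham_iff_finrank (ρ : G → Matrix d d ℚ_[p]) :
    IsDeRham ρ ↔ Module.finrank ℚ_[p] (dR ρ) = Fintype.card d := by
  obtain ⟨hfin, hle⟩ := finrank_dR_le ρ
  refine ⟨fun ⟨X, hX⟩ => le_antisymm hle ?_, fun h => ?_⟩
  · have hmem : ∀ k, (X : Matrix d d (BField p)).col k ∈ dR ρ := fun k σ => funext fun i =>
      congrFun (congrFun (hX σ) i) k
    have hli : LinearIndependent ℚ_[p]
        (fun k => (⟨(X : Matrix d d (BField p)).col k, hmem k⟩ : dR ρ)) :=
      LinearIndependent.of_comp (dR ρ).subtype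
        ((Matrix.linearIndependent_cols_iff_isUnit.2 X.isUnit).restrict_scalars
          (by
            have := (qpB p).injective
            intro a b hab
            simpa [qp_smul_def] using this (by simpa [qp_smul_def] using hab)))
    exact hli.fintype_card_le_finrank
  · let b := (Module.finBasisOfFinrankEq ℚ_[p] (dR ρ) h).reindex (Fintype.equivFin d).symm
    have hli := linearIndependent_dR b.linearIndependent
    set X : Matrix d d (BField p) := Matrix.of fun i k => (b k : d → BField p) i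
    obtain ⟨U, hU⟩ := Matrix.linearIndependent_cols_iff_isUnit.1
      (show LinearIndependent (BField p) X.col from hli)
    refine ⟨U, fun σ => Matrix.ext fun i k => ?_⟩
    rw [hU]
    exact congrFun ((b k).2 σ) i

/-- The action on `ℂ_p (j) ⊗ V`. -/
def actC (U : G → Matrix d d Cp) (j : ℤ) (σ : G) (x : d → Cp) : d → Cp :=
  twist p j σ • (U σ *ᵥ fun i => gal σ (x i))

theorem actC_smul (U : G → Matrix d d Cp) (j : ℤ) (σ : G) (a : Cp) (x : d → Cp) :
    actC U j σ (a • x) = gal σ a • actC U j σ x := by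
  have e : (fun i => gal σ ((a • x) i)) = gal σ a • fun i => gal σ (x i) :=
    funext fun i => map_mul (gal σ) a (x i)
  rw [actC, actC, e, Matrix.mulVec_smul, smul_comm]

theorem actC_add (U : G → Matrix d d Cp) (j : ℤ) (σ : G) (x y : d → Cp) :
    actC U j σ (x + y) = actC U j σ x + actC U j σ y := by
  rw [actC, actC, actC, ← smul_add, ← Matrix.mulVec_add]
  congr 2
  funext i
  exact map_add (gal σ) (x i) (y i)

theorem actC_zero (U : G → Matrix d d Cp) (j : ℤ) (σ : G) : actC U j σ 0 = 0 := by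
  have e : (fun i => gal σ ((0 : d → Cp) i)) = 0 := funext fun _ => map_zero (gal σ)
  rw [actC, e, Matrix.mulVec_zero, smul_zero]

/-- The invariants `(ℂ_p (j) ⊗ V) ^ G`. -/
def dHT (U : G → Matrix d d Cp) (j : ℤ) : Submodule ℚ_[p] (d → Cp) where
  carrier := {x | ∀ σ, actC U j σ x = x}
  add_mem' hx hy σ := by rw [actC_add, hx σ, hy σ]
  zero_mem' σ := actC_zero U j σ
  smul_mem' c x hx σ := by
    rw [← algebraMap_smul Cp c x, actC_smul, gal_scalar, hx σ]

theorem mem_dHT {U : G → Matrix d d Cp} {j : ℤ} {x : d → Cp} :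
    x ∈ dHT U j ↔ ∀ σ, actC U j σ x = x := Iff.rfl

theorem twist_ne_zero (j : ℤ) (σ : G) : twist p j σ ≠ 0 :=
  norm_ne_zero_iff.1 ((norm_twist j σ).trans_ne one_ne_zero)

theorem twist_add (i j : ℤ) (σ : G) : twist p (i + j) σ = twist p i σ * twist p j σ := by
  rw [twist, twist, twist, zpow_add₀ (chi_ne_zero σ), map_mul]

theorem mulVec_eq_of_mem_dHT {U : G → Matrix d d Cp} {j : ℤ} {x : d → Cp} (hx : x ∈ dHT U j)
    (σ : G) : (U σ *ᵥ fun i => gal σ (x i)) = twist p (-j) σ • x := by
  conv_rhs => rw [← hx σ]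
  rw [actC, smul_smul, twist_inv_mul, one_smul]

theorem linearIndependent_dHT {U : G → Matrix d d Cp} {J : Type*} [Fintype J] (w : J → ℤ)
    (x : J → d → Cp) (hx : ∀ a, x a ∈ dHT U (w a))
    (hK : ∀ (v : ℤ) (α : J → ℚ_[p]), ∑ i ∈ univ.filter (fun i => w i = v), α i • x i = 0 →
      ∀ i, w i = v → α i = 0) :
    LinearIndependent Cp x := by
  refine linearIndependent_of_eigen w x (fun σ : G => gal σ)
    (fun σ y => U σ *ᵥ fun i => gal σ (y i)) (fun σ v => twist p (-v) σ) (fun σ a => ?_)
    (fun σ => ?_) (fun σ v => twist_ne_zero _ _) (fun a v u h => ?_) hK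
  · have e : (fun i => gal σ ((∑ b, a b • x b) i)) =
        ∑ b, gal σ (a b) • fun i => gal σ (x b i) := by
      funext i
      simp only [Finset.sum_apply, Pi.smul_apply, smul_eq_mul, map_sum, map_mul]
    rw [e, Matrix.mulVec_sum]
    exact sum_congr rfl fun b _ => by
      rw [Matrix.mulVec_smul, mulVec_eq_of_mem_dHT (hx b) σ, smul_smul]
  · simp only [Pi.zero_apply, map_zero]
    exact Matrix.mulVec_zero (U σ)
  · have h2 : ∀ σ, twist p (u - v) σ * gal σ a = a := fun σ => by
      have h1 := congrArg (twist p u σ * ·) (h σ)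
      simp only [← mul_assoc, ← twist_add, add_neg_cancel, twist_zero, one_mul] at h1
      rw [mul_assoc, mul_comm (gal σ a), ← mul_assoc, ← twist_add] at h1
      rwa [sub_eq_add_neg]
    refine ⟨?_, fun hvu => eq_zero_of_invariant (sub_ne_zero.2 (Ne.symm hvu)) h2⟩
    rintro rfl
    obtain ⟨c, hc⟩ := (Fermat.Agent.AxSenTate.fixed_padicComplex_iff p a).1 fun σ => by
      have h3 := h2 σ
      rwa [sub_self, twist_zero, one_mul, gal_apply] at h3
    exact ⟨c, hc⟩

theorem finrank_dHT_le (U : G → Matrix d d Cp) (j : ℤ) :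
    FiniteDimensional ℚ_[p] (dHT U j) ∧ Module.finrank ℚ_[p] (dHT U j) ≤ Fintype.card d :=
  rank_le_of_linearIndependent fun J _ x hx => by
    have h := linearIndependent_dHT (fun _ => j) (fun a => (x a : d → Cp)) (fun a => (x a).2)
      fun v α h0 i hi => by
        refine Fintype.linearIndependent_iff.1 hx α (Subtype.ext ?_) i
        rw [AddSubmonoidClass.coe_finsetSum, ZeroMemClass.coe_zero, ← h0,
          filter_true_of_mem fun a _ => hi]
        rfl
    simpa using h.fintype_card_le_finrank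

instance dHT_finite (U : G → Matrix d d Cp) (j : ℤ) : FiniteDimensional ℚ_[p] (dHT U j) :=
  (finrank_dHT_le U j).1

/-- Bases of finitely many weight spaces are independent together. -/
theorem exists_independent_family (U : G → Matrix d d Cp) (s : Finset ℤ) :
    ∃ (J : Type) (_ : Fintype J) (w : J → ℤ) (x : J → d → Cp),
      Fintype.card J = ∑ j ∈ s, Module.finrank ℚ_[p] (dHT U j) ∧
        (∀ a, x a ∈ dHT U (w a)) ∧ LinearIndependent Cp x := by
  classical
  refine ⟨(j : s) × Fin (Module.finrank ℚ_[p] (dHT U (j : ℤ))), inferInstance,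
    fun a => (a.1 : ℤ), fun a => (Module.finBasis ℚ_[p] (dHT U (a.1 : ℤ)) a.2 : d → Cp), ?_,
    fun a => (Module.finBasis ℚ_[p] (dHT U (a.1 : ℤ)) a.2).2, ?_⟩
  · rw [Fintype.card_sigma, ← sum_coe_sort s]
    exact sum_congr rfl fun j _ => Fintype.card_fin _
  refine linearIndependent_dHT _ _ (fun a => (Module.finBasis ℚ_[p] _ a.2).2) fun v α h0 => ?_
  rintro ⟨j, k⟩ hj
  have hz : ∑ k', α ⟨j, k'⟩ • Module.finBasis ℚ_[p] (dHT U (j : ℤ)) k' = 0 := by
    refine Subtype.ext ?_
    rw [AddSubmonoidClass.coe_finsetSum, ZeroMemClass.coe_zero, ← h0, sum_filter,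
      Fintype.sum_sigma, Fintype.sum_eq_single j]
    · exact sum_congr rfl fun k' _ => by rw [if_pos hj]; rfl
    · intro j' hj'
      refine sum_eq_zero fun k' _ => if_neg fun h => hj' (Subtype.ext (h.trans hj.symm))
  exact Fintype.linearIndependent_iff.1 (Module.finBasis ℚ_[p] _).linearIndependent _ hz k

/-- **`∑ dim (ℂ_p (j) ⊗ V) ^ G ≤ dim V`.** -/
theorem sum_finrank_dHT_le (U : G → Matrix d d Cp) (s : Finset ℤ) :
    ∑ j ∈ s, Module.finrank ℚ_[p] (dHT U j) ≤ Fintype.card d := by
  obtain ⟨J, _, w, x, hcard, -, hli⟩ := exists_independent_family U s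
  rw [← hcard]
  simpa using hli.fintype_card_le_finrank

/-- Hodge–Tate: in some basis of `ℂ_p ⊗ V` the representation is a sum of Tate twists. -/
def IsHodgeTate (U : G → Matrix d d Cp) : Prop :=
  ∃ (P : (Matrix d d Cp)ˣ) (j : d → ℤ),
    ∀ σ, FA.Sen.conj U P σ = Matrix.diagonal fun i => twist p (j i) σ

theorem isHodgeTate_iff_finrank (U : G → Matrix d d Cp) :
    IsHodgeTate U ↔
      ∃ s : Finset ℤ, ∑ j ∈ s, Module.finrank ℚ_[p] (dHT U j) = Fintype.card d := by
  classical
  refine ⟨fun ⟨P, v, hP⟩ => ?_, fun ⟨s, hs⟩ => ?_⟩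
  · refine ⟨univ.image fun i => -v i, le_antisymm (sum_finrank_dHT_le U _) ?_⟩
    have hmem : ∀ k, (P : Matrix d d Cp).col k ∈ dHT U (-v k) := fun k σ => funext fun i => by
      have h1 := congrFun (congrFun (conj_eq_iff.1 (hP σ)) i) k
      rw [Matrix.mul_diagonal] at h1
      change twist p (-v k) σ * (U σ * galM σ (P : Matrix d d Cp)) i k = (P : Matrix d d Cp) i k
      rw [h1, mul_comm ((P : Matrix d d Cp) i k), ← mul_assoc, twist_inv_mul, one_mul]
    have hli : LinearIndependent ℚ_[p] (P : Matrix d d Cp).col :=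
      (Matrix.linearIndependent_cols_iff_isUnit.2 P.isUnit).restrict_scalars
        (by
          intro a b hab
          exact (algebraMap ℚ_[p] Cp).injective (by simpa [Algebra.smul_def] using hab))
    rw [← card_univ, card_eq_sum_card_image (fun i => -v i) univ]
    refine sum_le_sum fun j _ => ?_
    have hj : LinearIndependent ℚ_[p] fun k : {i // i ∈ univ.filter fun i => -v i = j} =>
        (⟨(P : Matrix d d Cp).col k,
          by simpa only [(mem_filter.1 k.2).2] using hmem k⟩ : dHT U j) :=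
      LinearIndependent.of_comp (dHT U j).subtype (hli.comp _ Subtype.val_injective)
    have hc := hj.fintype_card_le_finrank
    rwa [Fintype.card_coe] at hc
  · obtain ⟨J, _, w, x, hcard, hx, hli⟩ := exists_independent_family U s
    let e : d ≃ J := Fintype.equivOfCardEq (hs.symm.trans hcard.symm)
    set X : Matrix d d Cp := Matrix.of fun i k => x (e k) i
    obtain ⟨P, hP⟩ := Matrix.linearIndependent_cols_iff_isUnit.1
      (show LinearIndependent Cp X.col from hli.comp e e.injective)
    refine ⟨P, fun k => -w (e k), fun σ => conj_eq_iff.2 (Matrix.ext fun i k => ?_)⟩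
    rw [hP, Matrix.mul_diagonal, mul_comm (X i k)]
    exact congrFun (mulVec_eq_of_mem_dHT (hx (e k)) σ) i

end FA.PadicHodge
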