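import Mathlib.LinearAlgebra.Dimension.Finite
import Mathlib.LinearAlgebra.LinearIndependent.Basic
import Mathlib.LinearAlgebra.FiniteDimensional.Basic

/-!
# Galois descent inequality

Eigenvectors of a family of semilinear maps that are independent over the fixed field are
independent over the ring of scalars.
-/

set_option autoImplicit false
set_option linter.unusedSectionVars false

noncomputable section

open Finset

namespace FA.PadicHodge

variable {K B M : Type*} [Field K] [Field B] [Algebra K B] [AddCommGroup M]
  [Module B M] [Module K M] [IsScalarTower K B M]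

/-- The data of the descent: `Φ s` is semilinear for `f s` and multiplies `x i` by `c s (w i)`. -/
theorem linearIndependent_of_eigen {S ι W : Type*} [Fintype ι] [DecidableEq W] (w : ι → W)
    (x : ι → M) (f : S → B →+* B) (Φ : S → M → M) (c : S → W → B)
    (hΦ : ∀ s (a : ι → B), Φ s (∑ i, a i • x i) = ∑ i, (f s (a i) * c s (w i)) • x i)
    (hΦ0 : ∀ s, Φ s 0 = 0) (hc : ∀ s v, c s v ≠ 0)
    (hfix : ∀ (a : B) (v u : W), (∀ s, f s a * c s v = c s u * a) →
      (v = u → a ∈ Set.range (algebraMap K B)) ∧ (v ≠ u → a = 0))
    (hK : ∀ (v : W) (α : ι → K), ∑ i ∈ univ.filter (fun i => w i = v), α i • x i = 0 →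
      ∀ i, w i = v → α i = 0) :
    LinearIndependent B x := by
  classical
  rw [Fintype.linearIndependent_iff]
  intro g hg
  suffices h : ∀ (n : ℕ) (g : ι → B), (univ.filter fun i => g i ≠ 0).card ≤ n →
      ∑ i, g i • x i = 0 → ∀ i, g i = 0 from h _ g le_rfl hg
  intro n
  induction n with
  | zero =>
    intro g hn _ i
    by_contra hi
    exact absurd hn (not_le.2 (card_pos.2 ⟨i, mem_filter.2 ⟨mem_univ i, hi⟩⟩))
  | succ n ih =>
    intro g hn hg k
    by_contra hk
    set b : ι → B := fun i => g i / g k
    have hb : ∑ i, b i • x i = 0 := by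
      have h1 := congrArg ((g k)⁻¹ • ·) hg
      simp only [smul_sum, smul_smul, smul_zero] at h1
      simpa only [b, div_eq_inv_mul] using h1
    have hbk : b k = 1 := div_self hk
    have hrel : ∀ s i, f s (b i) * c s (w i) = c s (w k) * b i := fun s i => by
      refine sub_eq_zero.1 (ih (fun i => f s (b i) * c s (w i) - c s (w k) * b i) ?_ ?_ i)
      · refine Nat.le_of_lt_succ (lt_of_lt_of_le (card_lt_card ?_) hn)
        refine (ssubset_iff_of_subset fun i hi => ?_).2 ⟨k, mem_filter.2 ⟨mem_univ k, hk⟩, ?_⟩
        · rw [mem_filter] at hi ⊢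
          refine ⟨hi.1, fun h0 => hi.2 ?_⟩
          simp [b, h0]
        · simp [hbk]
      · have h1 := hΦ s b
        rw [hb, hΦ0] at h1
        simp only [sub_smul, sum_sub_distrib, mul_smul]
        rw [← smul_sum, hb, smul_zero, sub_zero]
        simpa only [mul_smul] using h1.symm
    have hex : ∀ i, ∃ α : K, (w i = w k → algebraMap K B α = b i) ∧ (w i ≠ w k → b i = 0) :=
      fun i => by
        have h1 := hfix (b i) (w i) (w k) fun s => hrel s i
        by_cases hw : w i = w k
        · obtain ⟨α, hα⟩ := h1.1 hw
          exact ⟨α, fun _ => hα, h1.2⟩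
        · exact ⟨0, fun h => absurd h hw, h1.2⟩
    choose α hα hα0 using hex
    have hsum : ∑ i ∈ univ.filter (fun i => w i = w k), α i • x i = 0 := by
      rw [sum_filter]
      refine Eq.trans (sum_congr rfl fun i _ => ?_) hb
      split_ifs with hw
      · rw [← hα i hw, algebraMap_smul]
      · rw [hα0 i hw, zero_smul]
    have hαk := hα k rfl
    rw [hK (w k) α hsum k rfl, map_zero, hbk] at hαk
    exact zero_ne_one hαk

theorem rank_le_of_linearIndependent {D : Type*} [AddCommGroup D] [Module K D] {n : ℕ}
    (h : ∀ (ι : Type) [Fintype ι] (x : ι → D), LinearIndependent K x → Fintype.card ι ≤ n) :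
    FiniteDimensional K D ∧ Module.finrank K D ≤ n := by
  classical
  have hr : Module.rank K D ≤ n := rank_le fun s hs => by
    have h1 := h (Fin s.card) (fun i => ((s.equivFin.symm i : s) : D))
      (hs.comp _ s.equivFin.symm.injective)
    simpa using h1
  have hfin : FiniteDimensional K D :=
    Module.rank_lt_aleph0_iff.1 (hr.trans_lt Cardinal.natCast_lt_aleph0)
  refine ⟨hfin, ?_⟩
  have h2 := hr
  rw [← Module.finrank_eq_rank] at h2
  exact_mod_cast h2

end FA.PadicHodge
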